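import Fermat.Agent.S19.KM.Geom.Lift.Ker

/-!
# S19 / KM route, block Gc, section L2: [NOR] the reduction of `B₁` is integrally closed

Owner: helper252.
-/

set_option autoImplicit false
set_option linter.style.haveILetI false

noncomputable section

namespace Fermat.Agent.S19.KM.Lift

open Fermat.Agent.GoodRed Polynomial Submodule

variable {O K E F : Type*} [CommRing O] [IsDomain O] [IsDiscreteValuationRing O]
  [Field K] [CharZero K] [Algebra O K] [IsFractionRing O K]
  [Field E] [Algebra K E] [Algebra O E] [IsScalarTower O K E]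
  [Field F] [Algebra E F] [FiniteDimensional E F]
  {k₀ Fk₀ : Type*} [Field k₀] [Field Fk₀] [Algebra k₀ Fk₀]

section L2

omit [IsDomain O] [IsDiscreteValuationRing O] [FiniteDimensional E F] in
theorem nor_aeval_mem_chart (x : E) (s : O[X]) : algebraMap E F (aeval x s) ∈ chart O F x :=
  Subalgebra.algebraMap_mem (chart O F x) (toPoly O x s)

theorem exists_red_eq_of_isIntegral (K : Type*) [Field K] [CharZero K] [Algebra O K]
    [IsFractionRing O K] [Algebra K E] [IsScalarTower O K E]
    (ϖ : O) (hϖ : Irreducible ϖ) (x : E) (hx : Transcendental K x)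
    (hgen : IntermediateField.adjoin K {x} = ⊤) (𝒟 : ValuationSubring F)
    (hG : GaussData O ϖ 𝒟 x)
    (N0 : IsDedekindDomain (chart O F x ⧸ Ideal.span {unifChart O F ϖ x}))
    (res : O →+* k₀) (red : 𝒟 →+* Fk₀) (hres : Function.Surjective res)
    (hred : Function.Surjective red)
    (hcomp : ∀ a : O, red ⟨algebraMap E F (algebraMap O E a), hG.algebraMap_mem a⟩ =
      algebraMap k₀ Fk₀ (res a))
    (hxD : algebraMap E F x ∈ 𝒟) {fb : Fk₀}
    (hfb : IsIntegral (Algebra.adjoin k₀ {red ⟨algebraMap E F x, hxD⟩}) fb) :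
    ∃ b : 𝒟, (b : F) ∈ chart O F x ∧ red b = fb := by
  classical
  -- the inclusion of the chart in `𝒟`
  let ι : chart O F x →+* 𝒟 :=
    (algebraMap (chart O F x) F).codRestrict 𝒟.toSubring
      (fun b => mem_of_mem_chart ϖ x 𝒟 hG b.2)
  have hι : ∀ b : chart O F x, ((ι b : 𝒟) : F) = (b : F) := fun b => rfl
  have hu : red (ι (unifChart O F ϖ x)) = 0 := by
    rw [red_eq_zero_iff hG red hred]
    exact ⟨1, 𝒟.one_mem, by rw [mul_one]; rfl⟩
  have hker : ∀ a ∈ Ideal.span {unifChart O F ϖ x}, (red.comp ι) a = 0 := by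
    intro a ha
    obtain ⟨c, rfl⟩ := Ideal.mem_span_singleton'.1 ha
    rw [RingHom.comp_apply, map_mul, map_mul, hu, mul_zero]
  let φ : (chart O F x ⧸ Ideal.span {unifChart O F ϖ x}) →+* Fk₀ :=
    Ideal.Quotient.lift _ (red.comp ι) hker
  have hφ : ∀ b : chart O F x, φ (Ideal.Quotient.mk _ b) = red (ι b) := fun b => rfl
  -- (a) injectivity
  have hinj : Function.Injective φ := by
    rw [injective_iff_map_eq_zero]
    intro qq hqq
    obtain ⟨b, rfl⟩ := Ideal.Quotient.mk_surjective qq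
    rw [hφ, red_eq_zero_iff hG red hred] at hqq
    obtain ⟨w, hw, e⟩ := hqq
    have hwc : w ∈ chart O F x := by
      refine mem_chart_of_unif_pow_mul_mem K ϖ hϖ x hx hgen 𝒟 hG hw 1 ?_
      rw [pow_one, ← e, hι]
      exact b.2
    rw [Ideal.Quotient.eq_zero_iff_mem, Ideal.mem_span_singleton]
    refine ⟨⟨w, hwc⟩, Subtype.ext ?_⟩
    rw [← hι, e]
    rfl
  letI : Algebra (chart O F x ⧸ Ideal.span {unifChart O F ϖ x}) Fk₀ := φ.toAlgebra
  have halg : ∀ qq, algebraMap (chart O F x ⧸ Ideal.span {unifChart O F ϖ x}) Fk₀ qq = φ qq :=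
    fun _ => rfl
  haveI : FaithfulSMul (chart O F x ⧸ Ideal.span {unifChart O F ϖ x}) Fk₀ :=
    (faithfulSMul_iff_algebraMap_injective _ _).2 hinj
  -- (b) the fraction field
  haveI : IsFractionRing (chart O F x ⧸ Ideal.span {unifChart O F ϖ x}) Fk₀ := by
    refine IsFractionRing.of_field (chart O F x ⧸ Ideal.span {unifChart O F ϖ x}) Fk₀ fun z => ?_
    obtain ⟨y, rfl⟩ := hred z
    obtain ⟨s, hs, hsy⟩ := hG.integral y y.2
    rw [intO_iff_mem_chart] at hsy
    have hsc : algebraMap E F (aeval x s) ∈ chart O F x := nor_aeval_mem_chart x s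
    refine ⟨Ideal.Quotient.mk _ ⟨_, hsy⟩, Ideal.Quotient.mk _ ⟨_, hsc⟩, ?_⟩
    rw [halg, halg, hφ, hφ]
    have hunit : red (ι ⟨_, hsc⟩) ≠ 0 := by
      intro h0
      have h1 : (ι ⟨_, hsc⟩ : 𝒟) * ⟨_, (hG.gauss s hs).2⟩ = 1 := by
        apply Subtype.ext
        have hne : algebraMap E F (aeval x s) ≠ 0 := by
          intro h00
          rw [map_eq_zero, ← aeval_map_algebraMap K] at h00
          have h01 := (transcendental_iff.1 hx) _ h00
          have h02 : s = 0 := Polynomial.map_injective _ (IsFractionRing.injective O K)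
            (by rw [h01, Polynomial.map_zero])
          obtain ⟨i, hi⟩ := hs
          exact hi (by rw [h02, coeff_zero]; exact dvd_zero _)
        exact mul_inv_cancel₀ hne
      have := congrArg red h1
      rw [map_mul, h0, zero_mul, map_one] at this
      exact zero_ne_one this
    rw [eq_div_iff hunit, ← map_mul]
    congr 1
    apply Subtype.ext
    exact mul_comm _ _
  -- (c) integrality
  have hint : IsIntegral (chart O F x ⧸ Ideal.span {unifChart O F ϖ x}) fb := by
    refine ChartInv.isIntegralElem_of_range_le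
      (algebraMap (Algebra.adjoin k₀ {red ⟨algebraMap E F x, hxD⟩}) Fk₀)
      (algebraMap (chart O F x ⧸ Ideal.span {unifChart O F ϖ x}) Fk₀) ?_ hfb
    rintro ⟨r, hr⟩
    rw [Algebra.adjoin_singleton_eq_range_aeval] at hr
    obtain ⟨pb, rfl⟩ := hr
    obtain ⟨p, rfl⟩ := Polynomial.map_surjective res hres pb
    refine ⟨Ideal.Quotient.mk _ ⟨_, nor_aeval_mem_chart x p⟩, ?_⟩
    rw [halg, hφ]
    exact red_aeval hG res red hcomp hxD p
  -- (d) conclusion
  haveI := N0
  obtain ⟨qq, hqq⟩ := IsIntegrallyClosed.isIntegral_iff.1 hint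
  obtain ⟨b, rfl⟩ := Ideal.Quotient.mk_surjective qq
  exact ⟨ι b, b.2, hqq⟩

end L2

end Fermat.Agent.S19.KM.Lift
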