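import Fermat.Agent.S19.KM.Geom.Lift.EltAux
import Fermat.Agent.S19.KM.Geom.Lift.Nor

/-!
# S19 / KM route, block Gc, section L5: lifting of elements of `LL k₀ xb i` to `Λ_i`

`exists_lift`: every element of `LL k₀ xb i` is the reduction of an element `f ∈ B₁` with
`x⁻ⁱ f ∈ B₂`, provided `B₂[x] = B₁ + xⁱ B₂` (hypothesis `hdec`).  The argument is in
`Geom/Lift/EltAux.lean`; here the two instances of [NOR] (section L2) are plugged in.
-/

set_option autoImplicit false

noncomputable section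

namespace Fermat.Agent.S19.KM.Lift

open Fermat.Agent.GoodRed Polynomial Submodule

variable {O K E F : Type*} [CommRing O] [IsDomain O] [IsDiscreteValuationRing O]
  [Field K] [CharZero K] [Algebra O K] [IsFractionRing O K]
  [Field E] [Algebra K E] [Algebra O E] [IsScalarTower O K E]
  [Field F] [Algebra E F] [FiniteDimensional E F]
  {k₀ Fk₀ : Type*} [Field k₀] [Field Fk₀] [Algebra k₀ Fk₀]

section L5

theorem exists_lift (K : Type*) [Field K] [CharZero K] [Algebra O K]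
    [IsFractionRing O K] [Algebra K E] [IsScalarTower O K E]
    (ϖ : O) (hϖ : Irreducible ϖ) (x : E) (hx : Transcendental K x)
    (hgen : IntermediateField.adjoin K {x} = ⊤) (𝒟 : ValuationSubring F)
    (hG : GaussData O ϖ 𝒟 x)
    (N0 : IsDedekindDomain (chart O F x ⧸ Ideal.span {unifChart O F ϖ x}))
    (N1 : IsDedekindDomain (chart O F x⁻¹ ⧸ Ideal.span {unifChart O F ϖ x⁻¹}))
    (res : O →+* k₀) (red : 𝒟 →+* Fk₀) (hres : Function.Surjective res)
    (hred : Function.Surjective red)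
    (hcomp : ∀ a : O, red ⟨algebraMap E F (algebraMap O E a), hG.algebraMap_mem a⟩ =
      algebraMap k₀ Fk₀ (res a))
    (hxD : algebraMap E F x ∈ 𝒟) {i : ℕ}
    (hdec : ∀ (w : F) (s : ℕ), algebraMap E F x⁻¹ ^ s * w ∈ chart O F x⁻¹ →
      ∃ c₁ ∈ chart O F x, ∃ c₂ ∈ chart O F x⁻¹, w = c₁ + algebraMap E F x ^ i * c₂)
    {fb : Fk₀} (hfb : fb ∈ LL k₀ (red ⟨algebraMap E F x, hxD⟩) i) :
    ∃ f : 𝒟, (f : F) ∈ chart O F x ∧ algebraMap E F x⁻¹ ^ i * (f : F) ∈ chart O F x⁻¹ ∧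
      red f = fb :=
  exists_lift_of_nor (k₀ := k₀) K ϖ hϖ x hx hgen 𝒟 hG red hred hxD (inv_var_mem hG)
    (fun _ h => exists_red_eq_of_isIntegral K ϖ hϖ x hx hgen 𝒟 hG N0 res red hres hred hcomp hxD h)
    (fun _ h => exists_red_eq_of_isIntegral K ϖ hϖ x⁻¹ (transcendental_inv K x hx)
      (adjoin_inv_eq_top K x hgen) 𝒟 (GaussData.inv K ϖ hϖ x hx hgen 𝒟 hG) N1 res red hres hred
      hcomp (inv_var_mem hG) h)
    hdec hfb

end L5

end Fermat.Agent.S19.KM.Lift
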