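import Fermat.Agent.S19.KM.Geom.Lift.Defs

/-!
# S19 / KM route, block [G], section Gc, part L6: `Λ_i` is a finitely generated `O`-module

The trace-dual `e` of an `O[x]`-integral basis of `F / E` has `B₁ ⊆ ⨁ O[x] e_t`; the elements of the
finite dimensional space `LL K X i` have coordinates in `K[x]` of bounded degree `≤ A`; hence
`Λ_i ⊆ ⨁_{a ≤ A, t} O X ^ a e_t`.
-/

set_option autoImplicit false

noncomputable section

namespace Fermat.Agent.S19.KM.Lift

open Fermat.Agent.GoodRed Polynomial Submodule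

variable {O K E F : Type*} [CommRing O] [IsDomain O] [IsDiscreteValuationRing O]
  [Field K] [CharZero K] [Algebra O K] [IsFractionRing O K]
  [Field E] [Algebra K E] [Algebra O E] [IsScalarTower O K E]
  [Field F] [Algebra E F] [FiniteDimensional E F]
  {k₀ Fk₀ : Type*} [Field k₀] [Field Fk₀] [Algebra k₀ Fk₀]

section L6

omit [FiniteDimensional E F] in
/-- integrality over `K[x]`, `x ∈ E`, is integrality over `K[X]`, `X` the image of `x` in `F` -/
theorem FGAux.isIntegral_adjoin_iff (K : Type*) [Field K] [Algebra K E] [Algebra K F]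
    [IsScalarTower K E F] (x : E) (y : F) :
    IsIntegral (Algebra.adjoin K {algebraMap E F x}) y ↔ IsIntegral (Algebra.adjoin K {x}) y := by
  have hmap : (Algebra.adjoin K {x}).map (IsScalarTower.toAlgHom K E F) =
      Algebra.adjoin K {algebraMap E F x} := by
    rw [AlgHom.map_adjoin, Set.image_singleton]
    rfl
  constructor
  · intro hy
    have hlift : ∀ z : Algebra.adjoin K {algebraMap E F x},
        ∃ w : Algebra.adjoin K {x}, algebraMap E F w.1 = z.1 := by
      rintro ⟨z, hz⟩
      rw [← hmap] at hz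
      obtain ⟨w, hw, hwz⟩ := hz
      exact ⟨⟨w, hw⟩, hwz⟩
    choose e he using hlift
    have hinj : Function.Injective (algebraMap E F) := (algebraMap E F).injective
    let φ : Algebra.adjoin K {algebraMap E F x} →+* Algebra.adjoin K {x} :=
      { toFun := e
        map_one' := Subtype.ext (hinj (by rw [he]; simp))
        map_mul' := fun z w => Subtype.ext (hinj (by rw [he]; simp [he]))
        map_zero' := Subtype.ext (hinj (by rw [he]; simp))
        map_add' := fun z w => Subtype.ext (hinj (by rw [he]; simp [he])) }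
    refine IsIntegral.map_of_comp_eq φ (RingHom.id F) ?_ hy
    ext z
    exact he z
  · intro hy
    have hmem : ∀ w : Algebra.adjoin K {x},
        algebraMap E F w.1 ∈ Algebra.adjoin K {algebraMap E F x} := by
      intro w
      rw [← hmap]
      exact ⟨w.1, w.2, rfl⟩
    let φ : Algebra.adjoin K {x} →+* Algebra.adjoin K {algebraMap E F x} :=
      { toFun := fun w => ⟨algebraMap E F w.1, hmem w⟩
        map_one' := Subtype.ext (by simp)
        map_mul' := fun z w => Subtype.ext (by simp)
        map_zero' := Subtype.ext (by simp)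
        map_add' := fun z w => Subtype.ext (by simp) }
    exact IsIntegral.map_of_comp_eq φ (RingHom.id F) rfl hy

/-- a basis of `F / E` in which the elements of the chart have coordinates in `O[x]` -/
theorem FGAux.exists_basis (K : Type*) [Field K] [CharZero K] [Algebra O K]
    [IsFractionRing O K] [Algebra K E] [IsScalarTower O K E]
    (x : E) (hx : Transcendental K x) (hgen : IntermediateField.adjoin K {x} = ⊤) :
    ∃ (s : Finset F) (e : Module.Basis s E F),
      ∀ f ∈ chart O F x, ∀ t, ∃ p : O[X], aeval x p = e.repr f t := by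
  have := isNoetherianRing_polyRing (O := O) K x hx
  have := isIntegrallyClosed_polyRing (O := O) K x hx
  have := isFractionRing_polyRing (O := O) K x hx hgen
  have : CharZero E := charZero_of_injective_algebraMap (algebraMap K E).injective
  classical
  obtain ⟨s, b, hb⟩ := FiniteDimensional.exists_is_basis_integral (polyRing O x) E F
  refine ⟨s, (Algebra.traceForm E F).dualBasis (traceForm_nondegenerate E F) b, ?_⟩
  intro f hf t
  have h1 := integralClosure_le_span_dualBasis b hb hf
  rw [Module.Basis.mem_span_iff_repr_mem] at h1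
  obtain ⟨r, hr⟩ := h1 t
  obtain ⟨p, rfl⟩ := ChartBase.toPoly_surjective x r
  exact ⟨p, hr⟩

omit [CharZero K] [FiniteDimensional E F] in
theorem FGAux.exists_poly [Algebra K F] [IsScalarTower K E F] {ϖ : O} (hϖ : Irreducible ϖ) {x : E}
    {i : ℕ} {ι : Type*} (e : Module.Basis ι E F)
    (he : ∀ f ∈ chart O F x, ∀ t, ∃ p : O[X], aeval x p = e.repr f t) {f : F}
    (hf : f ∈ LL K (algebraMap E F x) i) (t : ι) : ∃ P : K[X], aeval x P = e.repr f t := by
  obtain ⟨k, hk⟩ := ChartVal.exists_pow_mul_mem_chart (K := K) hϖ x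
    ((FGAux.isIntegral_adjoin_iff K x f).mp hf.1)
  obtain ⟨p, hp⟩ := he _ hk t
  have hϖK : algebraMap O K ϖ ≠ 0 := by
    rw [Ne, map_eq_zero_iff _ (IsFractionRing.injective O K)]
    exact hϖ.ne_zero
  have hϖE : algebraMap O E ϖ ≠ 0 := by
    rw [IsScalarTower.algebraMap_apply O K E, Ne, map_eq_zero]
    exact hϖK
  have e1 : algebraMap E F (algebraMap O E ϖ) ^ k * f = ((algebraMap O E ϖ) ^ k) • f := by
    rw [Algebra.smul_def, map_pow]
  rw [e1, map_smul, Finsupp.smul_apply, smul_eq_mul] at hp
  refine ⟨C ((algebraMap O K ϖ) ^ k)⁻¹ * p.map (algebraMap O K), ?_⟩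
  rw [map_mul, aeval_C, aeval_map_algebraMap, hp, map_inv₀, map_pow,
    ← IsScalarTower.algebraMap_apply O K E]
  field_simp

/-- the elements of `F` whose coordinates are polynomials in `x` of degree at most `A` -/
def FGAux.W (K : Type*) [Field K] [Algebra K E] [Algebra K F] [IsScalarTower K E F] {ι : Type*}
    (e : Module.Basis ι E F) (x : E) (A : ℕ) : Submodule K F :=
  ⨅ t, ((degreeLE K (A : WithBot ℕ)).map (aeval x : K[X] →ₐ[K] E).toLinearMap).comap
    ((e.coord t).restrictScalars K)

omit [FiniteDimensional E F] in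
theorem FGAux.mem_W (K : Type*) [Field K] [Algebra K E] [Algebra K F] [IsScalarTower K E F]
    {ι : Type*} (e : Module.Basis ι E F) (x : E) (A : ℕ) (f : F) :
    f ∈ FGAux.W K e x A ↔ ∀ t, ∃ P : K[X], P.natDegree ≤ A ∧ aeval x P = e.repr f t := by
  simp only [FGAux.W, Submodule.mem_iInf, Submodule.mem_comap, Submodule.mem_map, mem_degreeLE,
    ← natDegree_le_iff_degree_le]
  rfl

omit [FiniteDimensional E F] in
theorem FGAux.W_mono (K : Type*) [Field K] [Algebra K E] [Algebra K F] [IsScalarTower K E F]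
    {ι : Type*} (e : Module.Basis ι E F) (x : E) {A B : ℕ} (h : A ≤ B) :
    FGAux.W K e x A ≤ FGAux.W K e x B := by
  intro f hf
  rw [FGAux.mem_W] at hf ⊢
  intro t
  obtain ⟨P, hP, hPf⟩ := hf t
  exact ⟨P, hP.trans h, hPf⟩

omit [FiniteDimensional E F] in
theorem FGAux.exists_mem_W (K : Type*) [Field K] [Algebra K E] [Algebra K F] [IsScalarTower K E F]
    {ι : Type*} [Fintype ι] (e : Module.Basis ι E F) (x : E) (f : F)
    (hf : ∀ t, ∃ P : K[X], aeval x P = e.repr f t) : ∃ A, f ∈ FGAux.W K e x A := by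
  choose P hP using hf
  refine ⟨Finset.univ.sup fun t => (P t).natDegree, ?_⟩
  rw [FGAux.mem_W]
  intro t
  exact ⟨P t, Finset.le_sup (f := fun t => (P t).natDegree) (Finset.mem_univ t), hP t⟩

omit [FiniteDimensional E F] in
theorem FGAux.exists_le_W (K : Type*) [Field K] [Algebra K E] [Algebra K F] [IsScalarTower K E F]
    {ι : Type*} [Fintype ι] (e : Module.Basis ι E F) (x : E) (V : Submodule K F) (hV : V.FG)
    (hf : ∀ f ∈ V, ∀ t, ∃ P : K[X], aeval x P = e.repr f t) : ∃ A, V ≤ FGAux.W K e x A := by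
  obtain ⟨s, hs⟩ := hV
  have h1 : ∀ g : s, ∃ A, (g : F) ∈ FGAux.W K e x A := fun g =>
    FGAux.exists_mem_W K e x g (hf g (hs ▸ subset_span g.2))
  choose A hA using h1
  refine ⟨Finset.univ.sup A, ?_⟩
  rw [← hs, span_le]
  intro g hg
  exact FGAux.W_mono K e x (Finset.le_sup (f := A) (Finset.mem_univ (⟨g, hg⟩ : s))) (hA ⟨g, hg⟩)

theorem fg_Lam (K : Type*) [Field K] [CharZero K] [Algebra O K]
    [IsFractionRing O K] [Algebra K E] [IsScalarTower O K E] [Algebra K F] [IsScalarTower K E F]
    [Algebra O F] [IsScalarTower O E F]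
    (ϖ : O) (hϖ : Irreducible ϖ) (x : E) (hx : Transcendental K x)
    (hgen : IntermediateField.adjoin K {x} = ⊤) (i : ℕ)
    (hfin : Module.Finite K (LL K (algebraMap E F x) i)) : (Lam O F x i).FG := by
  obtain ⟨s, e, he⟩ := FGAux.exists_basis (O := O) (F := F) K x hx hgen
  obtain ⟨A, hA⟩ := FGAux.exists_le_W K e x (LL K (algebraMap E F x) i)
    ((Submodule.fg_top _).mp hfin.fg_top) (fun f hf t => FGAux.exists_poly hϖ e he hf t)
  classical
  refine Submodule.FG.of_le (T := span O (((Finset.range (A + 1) ×ˢ Finset.univ).image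
    (fun at' : ℕ × s => algebraMap E F x ^ at'.1 * e at'.2) : Finset F) : Set F)) ⟨_, rfl⟩ ?_
  intro f hf
  rw [mem_Lam] at hf
  have hfV : f ∈ LL K (algebraMap E F x) i := by
    refine ⟨(FGAux.isIntegral_adjoin_iff K x f).mpr (ChartVal.isIntegral_adjoin_of_mem_chart (K := K) x hf.1), ?_⟩
    rw [← map_inv₀]
    exact (FGAux.isIntegral_adjoin_iff K x⁻¹ _).mpr (ChartVal.isIntegral_adjoin_of_mem_chart (K := K) x⁻¹ hf.2)
  have hfW := hA hfV
  rw [FGAux.mem_W] at hfW
  choose P hPdeg hP using hfW
  choose p hp using he f hf.1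
  have hinj : Function.Injective (aeval x : K[X] →ₐ[K] E) :=
    transcendental_iff_injective.mp hx
  have hpP : ∀ t, (p t).map (algebraMap O K) = P t := by
    intro t
    apply hinj
    rw [aeval_map_algebraMap, hp, hP]
  have hpdeg : ∀ t, (p t).natDegree ≤ A := by
    intro t
    rw [← natDegree_map_eq_of_injective (IsFractionRing.injective O K), hpP]
    exact hPdeg t
  rw [← e.sum_repr f]
  refine sum_mem fun t _ => ?_
  rw [← hp t, aeval_eq_sum_range' (Nat.lt_succ_of_le (hpdeg t)), Finset.sum_smul]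
  refine sum_mem fun a ha => ?_
  have e2 : ((p t).coeff a • x ^ a) • e t = (p t).coeff a • (algebraMap E F x ^ a * e t) := by
    rw [smul_assoc, Algebra.smul_def (x ^ a), map_pow]
  rw [e2]
  refine smul_mem _ _ (subset_span ?_)
  rw [Finset.mem_coe, Finset.mem_image]
  exact ⟨(a, t), Finset.mem_product.2 ⟨ha, Finset.mem_univ t⟩, rfl⟩

end L6

end Fermat.Agent.S19.KM.Lift
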