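import Fermat.Agent.S19.KM.Geom.Lift.Ker

/-!
# S19 / KM route, section Gc, L1 : the reduction of `B₁ = chart O F x` is integral over `k₀[xb]`
-/

set_option autoImplicit false

noncomputable section

namespace Fermat.Agent.S19.KM.Lift

open Fermat.Agent.GoodRed Polynomial Submodule

variable {O K E F : Type*} [CommRing O] [IsDomain O] [IsDiscreteValuationRing O]
  [Field K] [CharZero K] [Algebra O K] [IsFractionRing O K]
  [Field E] [Algebra K E] [Algebra O E] [IsScalarTower O K E]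
  [Field F] [Algebra E F] [FiniteDimensional E F]
  {k₀ Fk₀ : Type*} [Field k₀] [Field Fk₀] [Algebra k₀ Fk₀]

section L1

theorem isIntegral_red_of_mem_chart {ϖ : O} {x : E} {𝒟 : ValuationSubring F}
    (hG : GaussData O ϖ 𝒟 x) (res : O →+* k₀) (red : 𝒟 →+* Fk₀)
    (hcomp : ∀ a : O, red ⟨algebraMap E F (algebraMap O E a), hG.algebraMap_mem a⟩ =
      algebraMap k₀ Fk₀ (res a))
    (hxD : algebraMap E F x ∈ 𝒟) (b : 𝒟) (hb : (b : F) ∈ chart O F x) :
    IsIntegral (Algebra.adjoin k₀ {red ⟨algebraMap E F x, hxD⟩}) (red b) := by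
  obtain ⟨p, hp, h0⟩ := hb
  let f1 : polyRing O x →+* 𝒟 :=
    (algebraMap (polyRing O x) F).codRestrict 𝒟.toSubring
      (fun r => ChartBase.algebraMap_polyRing_mem ϖ x 𝒟 hG r)
  have hf : (algebraMap 𝒟 F).comp f1 = algebraMap (polyRing O x) F := by
    ext r; rfl
  have h1 : eval₂ f1 b p = 0 := by
    apply Subtype.val_injective
    show algebraMap 𝒟 F (eval₂ f1 b p) = 0
    rw [hom_eval₂, hf]
    exact h0
  have h2 : (red.comp f1).IsIntegralElem (red b) :=
    ⟨p, hp, by rw [← hom_eval₂, h1, map_zero]⟩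
  refine ChartInv.isIntegralElem_of_range_le (red.comp f1)
    (algebraMap (Algebra.adjoin k₀ {red ⟨algebraMap E F x, hxD⟩}) Fk₀) (fun r => ?_) h2
  obtain ⟨q, rfl⟩ := ChartBase.toPoly_surjective x r
  exact ⟨⟨aeval (red ⟨algebraMap E F x, hxD⟩) (q.map res), aeval_mem_adjoin_singleton _ _⟩,
    (red_aeval hG res red hcomp hxD q).symm⟩

end L1

end Fermat.Agent.S19.KM.Lift
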