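import Fermat.Agent.S19.KM.Geom.Lift.Ker
import Fermat.Agent.S19.KM.Geom.Lift.RedInt

/-!
# S19 / KM route, section Gc, L4: `Λ_i` and `LL K X i`; saturation; `red Λ_i ⊆ LL k₀ xb i`
(sub-architect helper120, proofs helper129)
-/

set_option autoImplicit false

noncomputable section

namespace Fermat.Agent.S19.KM.Lift

open Fermat.Agent.GoodRed Polynomial Submodule

variable {O K E F : Type*} [CommRing O] [IsDomain O] [IsDiscreteValuationRing O]
  [Field K] [CharZero K] [Algebra O K] [IsFractionRing O K]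
  [Field E] [Algebra K E] [Algebra O E] [IsScalarTower O K E]
  [Field F] [Algebra E F] [FiniteDimensional E F]
  {k₀ Fk₀ : Type*} [Field k₀] [Field Fk₀] [Algebra k₀ Fk₀]

section L4

/-- bridge: integrality over `K[X] ⊆ F` and over `K[x] ⊆ E` -/
theorem Generic.isIntegral_adjoin_iff (K : Type*) {E F : Type*} [Field K] [Field E] [Field F]
    [Algebra K E] [Algebra E F] [Algebra K F] [IsScalarTower K E F] (x : E) (z : F) :
    IsIntegral (Algebra.adjoin K {algebraMap E F x} : Subalgebra K F) z ↔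
      IsIntegral (Algebra.adjoin K {x} : Subalgebra K E) z := by
  constructor
  · intro h
    refine ChartInv.isIntegralElem_of_range_le
      (algebraMap (Algebra.adjoin K {algebraMap E F x} : Subalgebra K F) F)
      (algebraMap (Algebra.adjoin K {x} : Subalgebra K E) F) ?_ h
    rintro ⟨r, hr⟩
    rw [Algebra.adjoin_singleton_eq_range_aeval] at hr
    obtain ⟨p, rfl⟩ := hr
    refine ⟨⟨aeval x p, ?_⟩, ?_⟩
    · rw [Algebra.adjoin_singleton_eq_range_aeval]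
      exact ⟨p, rfl⟩
    · exact (aeval_algebraMap_apply F x p).symm
  · intro h
    refine ChartInv.isIntegralElem_of_range_le
      (algebraMap (Algebra.adjoin K {x} : Subalgebra K E) F)
      (algebraMap (Algebra.adjoin K {algebraMap E F x} : Subalgebra K F) F) ?_ h
    rintro ⟨r, hr⟩
    rw [Algebra.adjoin_singleton_eq_range_aeval] at hr
    obtain ⟨p, rfl⟩ := hr
    refine ⟨⟨aeval (algebraMap E F x) p, ?_⟩, ?_⟩
    · rw [Algebra.adjoin_singleton_eq_range_aeval]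
      exact ⟨p, rfl⟩
    · exact aeval_algebraMap_apply F x p

theorem mem_LL_of_mem (K : Type*) [Field K] [Algebra O K] [Algebra K E] [IsScalarTower O K E]
    [Algebra K F] [IsScalarTower K E F] {x : E} {i : ℕ} {f : F} (h₁ : f ∈ chart O F x)
    (h₂ : algebraMap E F x⁻¹ ^ i * f ∈ chart O F x⁻¹) : f ∈ LL K (algebraMap E F x) i := by
  rw [mem_LL]
  refine ⟨(Generic.isIntegral_adjoin_iff K x f).2
    (ChartVal.isIntegral_adjoin_of_mem_chart (K := K) x h₁), ?_⟩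
  rw [← map_inv₀]
  exact (Generic.isIntegral_adjoin_iff K x⁻¹ _).2
    (ChartVal.isIntegral_adjoin_of_mem_chart (K := K) x⁻¹ h₂)

theorem exists_pow_mul_mem_of_mem_LL [Algebra K F] [IsScalarTower K E F] {ϖ : O}
    (hϖ : Irreducible ϖ) {x : E} {i : ℕ} {f : F} (hf : f ∈ LL K (algebraMap E F x) i) :
    ∃ k : ℕ, algebraMap E F (algebraMap O E ϖ) ^ k * f ∈ chart O F x ∧
      algebraMap E F x⁻¹ ^ i * (algebraMap E F (algebraMap O E ϖ) ^ k * f) ∈ chart O F x⁻¹ := by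
  rw [mem_LL] at hf
  obtain ⟨hf₁, hf₂⟩ := hf
  rw [← map_inv₀] at hf₂
  obtain ⟨k₁, hk₁⟩ := ChartVal.exists_pow_mul_mem_chart (K := K) hϖ x
    ((Generic.isIntegral_adjoin_iff K x f).1 hf₁)
  obtain ⟨k₂, hk₂⟩ := ChartVal.exists_pow_mul_mem_chart (K := K) hϖ x⁻¹
    ((Generic.isIntegral_adjoin_iff K x⁻¹ _).1 hf₂)
  refine ⟨max k₁ k₂, ?_, ?_⟩
  · have e : algebraMap E F (algebraMap O E ϖ) ^ (max k₁ k₂) * f =
        algebraMap E F (algebraMap O E ϖ) ^ (max k₁ k₂ - k₁) *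
          (algebraMap E F (algebraMap O E ϖ) ^ k₁ * f) := by
      rw [← mul_assoc, ← pow_add, Nat.sub_add_cancel (le_max_left _ _)]
    rw [e]
    exact mul_mem (pow_mem (H1.const_mem_chart x ϖ) _) hk₁
  · have e : algebraMap E F x⁻¹ ^ i * (algebraMap E F (algebraMap O E ϖ) ^ (max k₁ k₂) * f) =
        algebraMap E F (algebraMap O E ϖ) ^ (max k₁ k₂ - k₂) *
          (algebraMap E F (algebraMap O E ϖ) ^ k₂ * (algebraMap E F x⁻¹ ^ i * f)) := by
      rw [← mul_assoc (algebraMap E F (algebraMap O E ϖ) ^ (max k₁ k₂ - k₂)), ← pow_add,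
        Nat.sub_add_cancel (le_max_right _ _), mul_left_comm]
    rw [e]
    exact mul_mem (pow_mem (H1.const_mem_chart x⁻¹ ϖ) _) hk₂

theorem saturated (K : Type*) [Field K] [CharZero K] [Algebra O K]
    [IsFractionRing O K] [Algebra K E] [IsScalarTower O K E]
    (ϖ : O) (hϖ : Irreducible ϖ) (x : E) (hx : Transcendental K x)
    (hgen : IntermediateField.adjoin K {x} = ⊤) (𝒟 : ValuationSubring F)
    (hG : GaussData O ϖ 𝒟 x) {i : ℕ} {w : F} (hw : w ∈ 𝒟)
    (h₁ : algebraMap E F (algebraMap O E ϖ) * w ∈ chart O F x)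
    (h₂ : algebraMap E F x⁻¹ ^ i * (algebraMap E F (algebraMap O E ϖ) * w) ∈ chart O F x⁻¹) :
    w ∈ chart O F x ∧ algebraMap E F x⁻¹ ^ i * w ∈ chart O F x⁻¹ := by
  refine ⟨mem_chart_of_unif_pow_mul_mem K ϖ hϖ x hx hgen 𝒟 hG hw 1 (by rwa [pow_one]), ?_⟩
  refine mem_chart_of_unif_pow_mul_mem K ϖ hϖ x⁻¹ (transcendental_inv K x hx)
    (adjoin_inv_eq_top K x hgen) 𝒟 (GaussData.inv K ϖ hϖ x hx hgen 𝒟 hG)
    (𝒟.mul_mem _ _ (𝒟.pow_mem (inv_var_mem hG) _) hw) 1 ?_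
  rw [pow_one, mul_left_comm]
  exact h₂

theorem red_mem_LL (K : Type*) [Field K] [CharZero K] [Algebra O K]
    [IsFractionRing O K] [Algebra K E] [IsScalarTower O K E]
    (ϖ : O) (hϖ : Irreducible ϖ) (x : E) (hx : Transcendental K x)
    (hgen : IntermediateField.adjoin K {x} = ⊤) (𝒟 : ValuationSubring F)
    (hG : GaussData O ϖ 𝒟 x) (res : O →+* k₀) (red : 𝒟 →+* Fk₀)
    (hcomp : ∀ a : O, red ⟨algebraMap E F (algebraMap O E a), hG.algebraMap_mem a⟩ =
      algebraMap k₀ Fk₀ (res a))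
    (hxD : algebraMap E F x ∈ 𝒟) {i : ℕ} (f : 𝒟) (h₁ : (f : F) ∈ chart O F x)
    (h₂ : algebraMap E F x⁻¹ ^ i * (f : F) ∈ chart O F x⁻¹) :
    red f ∈ LL k₀ (red ⟨algebraMap E F x, hxD⟩) i := by
  rw [mem_LL]
  refine ⟨isIntegral_red_of_mem_chart hG res red hcomp hxD f h₁, ?_⟩
  have hG' : GaussData O ϖ 𝒟 x⁻¹ := GaussData.inv K ϖ hϖ x hx hgen 𝒟 hG
  have hxD' : algebraMap E F x⁻¹ ∈ 𝒟 := inv_var_mem hG
  have h := isIntegral_red_of_mem_chart hG' res red hcomp hxD'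
    ((⟨algebraMap E F x⁻¹, hxD'⟩ : 𝒟) ^ i * f) h₂
  rw [red_inv_var red hxD hxD', map_mul, map_pow, red_inv_var red hxD hxD'] at h
  exact h

end L4

end Fermat.Agent.S19.KM.Lift
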