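import Fermat.Agent.S19.KM.Geom.Lift.Defs
import Fermat.Agent.Lib.GoodRed.ChartInv
import Fermat.Agent.Lib.GoodRed.ChartBase

/-!
# S19 / KM route, block [G], section Gc, L3 : `B₂[x] = B₁ + xⁱ B₂` for `i` large

`B₁ = chart O F x`, `B₂ = chart O F x⁻¹`.  There is `i₀` such that for all `i ≥ i₀` every `w` with
`x⁻ˢ w ∈ B₂` for some `s` is of the form `c₁ + xⁱ c₂`, `c₁ ∈ B₁`, `c₂ ∈ B₂`.
-/

set_option autoImplicit false

noncomputable section

namespace Fermat.Agent.S19.KM.Lift

open Fermat.Agent.GoodRed Polynomial Submodule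

variable {O K E F : Type*} [CommRing O] [IsDomain O] [IsDiscreteValuationRing O]
  [Field K] [CharZero K] [Algebra O K] [IsFractionRing O K]
  [Field E] [Algebra K E] [Algebra O E] [IsScalarTower O K E]
  [Field F] [Algebra E F] [FiniteDimensional E F]
  {k₀ Fk₀ : Type*} [Field k₀] [Field Fk₀] [Algebra k₀ Fk₀]

/-! ### L3 : `B₂[x] = B₁ + xⁱ B₂` for `i` large -/
section L3

/-- `w ∈ B₁ + xⁱ B₂` -/
private def DecompP (O : Type*) {E F : Type*} [CommRing O] [Field E] [Algebra O E] [Field F]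
    [Algebra E F] (x : E) (i : ℕ) (w : F) : Prop :=
  ∃ c₁ ∈ chart O F x, ∃ c₂ ∈ chart O F x⁻¹, w = c₁ + algebraMap E F x ^ i * c₂

private theorem DecompP.zero {O E F : Type*} [CommRing O] [Field E] [Algebra O E] [Field F]
    [Algebra E F] (x : E) (i : ℕ) : DecompP O x i (0 : F) :=
  ⟨0, zero_mem _, 0, zero_mem _, by rw [mul_zero, add_zero]⟩

private theorem DecompP.add {O E F : Type*} [CommRing O] [Field E] [Algebra O E] [Field F]
    [Algebra E F] {x : E} {i : ℕ} {w w' : F} (h : DecompP O x i w) (h' : DecompP O x i w') :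
    DecompP O x i (w + w') := by
  obtain ⟨c₁, h₁, c₂, h₂, rfl⟩ := h
  obtain ⟨d₁, k₁, d₂, k₂, rfl⟩ := h'
  exact ⟨c₁ + d₁, add_mem h₁ k₁, c₂ + d₂, add_mem h₂ k₂, by ring⟩

private theorem DecompP.const_mul {O E F : Type*} [CommRing O] [Field E] [Algebra O E] [Field F]
    [Algebra E F] {x : E} {i : ℕ} {w : F} (a : O) (h : DecompP O x i w) :
    DecompP O x i (algebraMap E F (algebraMap O E a) * w) := by
  obtain ⟨c₁, h₁, c₂, h₂, rfl⟩ := h
  exact ⟨_, mul_mem (H1.const_mem_chart x a) h₁, _, mul_mem (H1.const_mem_chart x⁻¹ a) h₂, by ring⟩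

/-- stability of `∀ n : ℤ, xⁿ u ∈ B₁ + xⁱ B₂` under multiplication by polynomials in `x⁻¹` -/
private theorem DecompP.aeval_mul {O E F : Type*} [CommRing O] [Field E] [Algebra O E] [Field F]
    [Algebra E F] {x : E} (hx0 : x ≠ 0) {i : ℕ} {u : F}
    (h : ∀ n : ℤ, DecompP O x i (algebraMap E F x ^ n * u)) (p : O[X]) (n : ℤ) :
    DecompP O x i (algebraMap E F x ^ n * (algebraMap E F (aeval x⁻¹ p) * u)) := by
  have hX0 : algebraMap E F x ≠ 0 := (_root_.map_ne_zero _).2 hx0
  induction p using Polynomial.induction_on' with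
  | add p q hp hq =>
    rw [map_add, map_add, add_mul, mul_add]
    exact hp.add hq
  | monomial t a =>
    have e : algebraMap E F x ^ n * (algebraMap E F (aeval x⁻¹ (monomial t a)) * u) =
        algebraMap E F (algebraMap O E a) * (algebraMap E F x ^ (n - (t : ℤ)) * u) := by
      rw [aeval_monomial, map_mul, map_pow, map_inv₀, zpow_sub₀ hX0, zpow_natCast, inv_pow]
      field_simp
    rw [e]
    exact (h _).const_mul a

theorem exists_decomp (K : Type*) [Field K] [CharZero K] [Algebra O K]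
    [IsFractionRing O K] [Algebra K E] [IsScalarTower O K E]
    (x : E) (hx : Transcendental K x) (hgen : IntermediateField.adjoin K {x} = ⊤) :
    ∃ i₀ : ℕ, ∀ i, i₀ ≤ i → ∀ (w : F) (s : ℕ), algebraMap E F x⁻¹ ^ s * w ∈ chart O F x⁻¹ →
      ∃ c₁ ∈ chart O F x, ∃ c₂ ∈ chart O F x⁻¹, w = c₁ + algebraMap E F x ^ i * c₂ := by
  classical
  have hx0 : x ≠ 0 := fun h0 => hx (h0 ▸ isAlgebraic_zero)
  have hX0 : algebraMap E F x ≠ 0 := (_root_.map_ne_zero _).2 hx0
  have hx' : Transcendental K x⁻¹ := transcendental_inv K x hx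
  have hgen' : IntermediateField.adjoin K {x⁻¹} = ⊤ := adjoin_inv_eq_top K x hgen
  obtain ⟨S, hS₁, hS₂⟩ := H1.exists_finset_span (O := O) (F := F) K x⁻¹ hx' hgen' (m := 1)
    one_ne_zero (h := 1) one_ne_zero
  have hN : ∀ e : F, ∃ k : ℕ, e ∈ S → ∀ M, k ≤ M → algebraMap E F x ^ M * e ∈ chart O F x := by
    intro e
    by_cases he : e ∈ S
    · have he' : e ∈ chart O F x⁻¹ := by
        have := hS₁ e he
        rwa [pow_one, mul_one] at this
      obtain ⟨k, hk⟩ := ChartInv.exists_forall_inv_pow_mul_mem x⁻¹ (inv_ne_zero hx0) he'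
      rw [inv_inv] at hk
      exact ⟨k, fun _ => hk⟩
    · exact ⟨0, fun h => absurd h he⟩
  choose N hN using hN
  refine ⟨S.sup N, fun i hi w s hw => ?_⟩
  -- the generators
  have key : ∀ e ∈ S, ∀ n : ℤ, DecompP O x i (algebraMap E F x ^ n * e) := by
    intro e he n
    have he' : e ∈ chart O F x⁻¹ := by
      have := hS₁ e he
      rwa [pow_one, mul_one] at this
    by_cases hn : ((S.sup N : ℕ) : ℤ) ≤ n
    · obtain ⟨m, rfl⟩ := Int.eq_ofNat_of_zero_le ((Int.natCast_nonneg _).trans hn)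
      have hm : N e ≤ m := (Finset.le_sup (f := N) he).trans (by exact_mod_cast hn)
      refine ⟨_, ?_, 0, zero_mem _, by rw [mul_zero, add_zero]⟩
      rw [zpow_natCast]
      exact hN e he m hm
    · have hlt : n < (i : ℤ) := lt_of_lt_of_le (not_le.1 hn) (by exact_mod_cast hi)
      obtain ⟨m, hm⟩ := Int.eq_ofNat_of_zero_le (sub_nonneg.2 hlt.le)
      refine ⟨0, zero_mem _, algebraMap E F x⁻¹ ^ m * e,
        mul_mem (pow_mem (H1.var_mem_chart x⁻¹) m) he', ?_⟩
      have hn' : n = (i : ℤ) - (m : ℤ) := by omega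
      rw [hn', zero_add, zpow_sub₀ hX0, zpow_natCast, zpow_natCast, map_inv₀, inv_pow]
      field_simp
  -- the span
  have hspan : ∀ u ∈ Submodule.span (polyRing O x⁻¹) (S : Set F),
      ∀ n : ℤ, DecompP O x i (algebraMap E F x ^ n * u) := by
    intro u hu
    induction hu using Submodule.span_induction with
    | mem e he => exact key e he
    | zero =>
      intro n
      rw [mul_zero]
      exact DecompP.zero x i
    | add u v _ _ hu hv =>
      intro n
      rw [mul_add]
      exact (hu n).add (hv n)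
    | smul r u _ hu =>
      intro n
      obtain ⟨p, rfl⟩ := ChartBase.toPoly_surjective (O := O) x⁻¹ r
      have e : (toPoly O x⁻¹ p) • u = algebraMap E F (aeval x⁻¹ p) * u := by
        rw [Algebra.smul_def]
        rfl
      rw [e]
      exact DecompP.aeval_mul hx0 hu p n
  have hu : algebraMap E F x⁻¹ ^ s * w ∈ Submodule.span (polyRing O x⁻¹) (S : Set F) :=
    hS₂ _ (by rwa [pow_one, mul_one])
  have hfin := hspan _ hu (s : ℤ)
  have e : algebraMap E F x ^ (s : ℤ) * (algebraMap E F x⁻¹ ^ s * w) = w := by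
    rw [zpow_natCast, map_inv₀, inv_pow]
    field_simp
  rw [e] at hfin
  exact hfin

end L3

end Fermat.Agent.S19.KM.Lift
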