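import Fermat.Agent.S19.KM.Geom.Defs
import Fermat.Agent.Lib.GoodRed.H1
import Fermat.Agent.Lib.GoodRed.ChartVal

/-!
# S19 / KM route, block [G], section Gc (lifting over a discrete valuation ring): definitions

Setting of `Lib/GoodRed`: `O` a discrete valuation ring, `K = Frac O`, `E = K(x)`, `F / E` finite,
`B₁ = chart O F x`, `B₂ = chart O F x⁻¹`.  `Lam O F x i = {f ∈ B₁ | x⁻ⁱ f ∈ B₂}` as an `O`-submodule
of `F`.   Sub-architect: helper120.
-/

set_option autoImplicit false

noncomputable section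

namespace Fermat.Agent.S19.KM.Lift

open Fermat.Agent.GoodRed

/-- `Λ_i = {f ∈ B₁ | x⁻ⁱ f ∈ B₂}` -/
def Lam (O : Type*) {E : Type*} (F : Type*) [CommRing O] [Field E] [Algebra O E] [Field F] [Algebra E F]
    [Algebra O F] [IsScalarTower O E F] (x : E) (i : ℕ) : Submodule O F where
  carrier := {f | f ∈ chart O F x ∧ algebraMap E F x⁻¹ ^ i * f ∈ chart O F x⁻¹}
  zero_mem' := ⟨zero_mem _, by rw [mul_zero]; exact zero_mem _⟩
  add_mem' := fun {a b} ha hb => ⟨add_mem ha.1 hb.1, by rw [mul_add]; exact add_mem ha.2 hb.2⟩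
  smul_mem' := fun c a ha => by
    have e : c • a = algebraMap E F (algebraMap O E c) * a := by
      rw [Algebra.smul_def, IsScalarTower.algebraMap_apply O E F]
    refine ⟨?_, ?_⟩
    · rw [e]
      exact mul_mem (H1.const_mem_chart x c) ha.1
    · rw [e, mul_left_comm]
      exact mul_mem (H1.const_mem_chart x⁻¹ c) ha.2

theorem mem_Lam {O E F : Type*} [CommRing O] [Field E] [Algebra O E] [Field F] [Algebra E F]
    [Algebra O F] [IsScalarTower O E F] {x : E} {i : ℕ} {f : F} :
    f ∈ Lam O F x i ↔ f ∈ chart O F x ∧ algebraMap E F x⁻¹ ^ i * f ∈ chart O F x⁻¹ := Iff.rfl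

end Fermat.Agent.S19.KM.Lift
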