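import Fermat.Agent.S19.KM.Geom.Lift.Ker
import Fermat.Agent.Lib.GoodRed.ChartInv

/-!
# S19 / KM route, block Gc, section L5 (auxiliary form): lifting of elements of `LL k₀ xb i`

`exists_lift_of_nor`: `exists_lift` with the two instances of [NOR] (section L2) as hypotheses, so
that this file only depends on section L0.  The final statement is in `Geom/Lift/Elt.lean`.
-/

set_option autoImplicit false

noncomputable section

namespace Fermat.Agent.S19.KM.Lift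

open Fermat.Agent.GoodRed Polynomial Submodule

variable {O K E F : Type*} [CommRing O] [IsDomain O] [IsDiscreteValuationRing O]
  [Field K] [CharZero K] [Algebra O K] [IsFractionRing O K]
  [Field E] [Algebra K E] [Algebra O E] [IsScalarTower O K E]
  [Field F] [Algebra E F] [FiniteDimensional E F]
  {k₀ Fk₀ : Type*} [Field k₀] [Field Fk₀] [Algebra k₀ Fk₀]

section L5

theorem exists_lift_of_nor (K : Type*) [Field K] [CharZero K] [Algebra O K]
    [IsFractionRing O K] [Algebra K E] [IsScalarTower O K E]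
    (ϖ : O) (hϖ : Irreducible ϖ) (x : E) (hx : Transcendental K x)
    (hgen : IntermediateField.adjoin K {x} = ⊤) (𝒟 : ValuationSubring F)
    (hG : GaussData O ϖ 𝒟 x)
    (red : 𝒟 →+* Fk₀) (hred : Function.Surjective red)
    (hxD : algebraMap E F x ∈ 𝒟) (hxD' : algebraMap E F x⁻¹ ∈ 𝒟)
    (hnor₁ : ∀ fb : Fk₀, IsIntegral (Algebra.adjoin k₀ {red ⟨algebraMap E F x, hxD⟩}) fb →
      ∃ b : 𝒟, (b : F) ∈ chart O F x ∧ red b = fb)
    (hnor₂ : ∀ fb : Fk₀, IsIntegral (Algebra.adjoin k₀ {red ⟨algebraMap E F x⁻¹, hxD'⟩}) fb →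
      ∃ b : 𝒟, (b : F) ∈ chart O F x⁻¹ ∧ red b = fb) {i : ℕ}
    (hdec : ∀ (w : F) (s : ℕ), algebraMap E F x⁻¹ ^ s * w ∈ chart O F x⁻¹ →
      ∃ c₁ ∈ chart O F x, ∃ c₂ ∈ chart O F x⁻¹, w = c₁ + algebraMap E F x ^ i * c₂)
    {fb : Fk₀} (hfb : fb ∈ LL k₀ (red ⟨algebraMap E F x, hxD⟩) i) :
    ∃ f : 𝒟, (f : F) ∈ chart O F x ∧ algebraMap E F x⁻¹ ^ i * (f : F) ∈ chart O F x⁻¹ ∧
      red f = fb := by
  have hx0 : x ≠ 0 := fun h0 => hx (h0 ▸ isAlgebraic_zero)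
  have hX0 : algebraMap E F x ≠ 0 := (_root_.map_ne_zero _).mpr hx0
  have hXX : ∀ n : ℕ, algebraMap E F x⁻¹ ^ n * algebraMap E F x ^ n = 1 := by
    intro n
    rw [← mul_pow, map_inv₀, inv_mul_cancel₀ hX0, one_pow]
  obtain ⟨hfb1, hfb2⟩ := mem_LL.mp hfb
  -- [NOR] for `x`
  obtain ⟨b1, hb1, hrb1⟩ := hnor₁ _ hfb1
  -- [NOR] for `x⁻¹`
  have hG' : GaussData O ϖ 𝒟 x⁻¹ := GaussData.inv K ϖ hϖ x hx hgen 𝒟 hG
  have hx' : Transcendental K x⁻¹ := transcendental_inv K x hx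
  have hgen' : IntermediateField.adjoin K {x⁻¹} = ⊤ := adjoin_inv_eq_top K x hgen
  have hinv := red_inv_var red hxD hxD'
  have hfb2' : IsIntegral (Algebra.adjoin k₀ {red ⟨algebraMap E F x⁻¹, hxD'⟩})
      ((red ⟨algebraMap E F x, hxD⟩)⁻¹ ^ i * fb) := by
    rw [hinv]; exact hfb2
  obtain ⟨b2, hb2, hrb2⟩ := hnor₂ _ hfb2'
  -- the difference is divisible by `ϖ`
  have hd : red (b1 - ⟨algebraMap E F x, hxD⟩ ^ i * b2) = 0 := by
    rw [map_sub, map_mul, map_pow, hrb1, hrb2, ← mul_assoc, ← mul_pow,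
      mul_inv_cancel₀ (red_var_ne_zero hG red hxD), one_pow, one_mul, sub_self]
  obtain ⟨w, hw, hwe⟩ := (red_eq_zero_iff hG red hred _).mp hd
  have hwe' : (b1 : F) - algebraMap E F x ^ i * (b2 : F) =
      algebraMap E F (algebraMap O E ϖ) * w := by
    rw [← hwe]; rfl
  -- `x⁻ˢ w ∈ B₂`
  obtain ⟨k, hk⟩ := ChartInv.exists_forall_inv_pow_mul_mem x hx0 hb1
  have hs1 : algebraMap E F x⁻¹ ^ (max k i) * (algebraMap E F (algebraMap O E ϖ) * w) ∈
      chart O F x⁻¹ := by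
    have e : algebraMap E F x⁻¹ ^ (max k i) * (algebraMap E F (algebraMap O E ϖ) * w) =
        algebraMap E F x⁻¹ ^ (max k i) * (b1 : F) -
          algebraMap E F x⁻¹ ^ (max k i - i) * (b2 : F) := by
      rw [← hwe', mul_sub]
      congr 1
      conv_lhs => rw [← Nat.sub_add_cancel (le_max_right k i), pow_add]
      rw [mul_assoc, ← mul_assoc (algebraMap E F x⁻¹ ^ i), hXX, one_mul]
    rw [e]
    exact sub_mem (hk _ (le_max_left k i)) (mul_mem (pow_mem (H1.var_mem_chart x⁻¹) _) hb2)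
  have hs2 : algebraMap E F x⁻¹ ^ (max k i) * w ∈ chart O F x⁻¹ := by
    refine mem_chart_of_unif_pow_mul_mem K ϖ hϖ x⁻¹ hx' hgen' 𝒟 hG'
      (𝒟.mul_mem _ _ (𝒟.pow_mem hxD' _) hw) 1 ?_
    rw [pow_one, mul_left_comm]
    exact hs1
  obtain ⟨c1, hc1, c2, hc2, hwc⟩ := hdec w _ hs2
  -- the lift
  have hc1D : c1 ∈ 𝒟 := mem_of_mem_chart ϖ x 𝒟 hG hc1
  have hϖ0 : red ⟨algebraMap E F (algebraMap O E ϖ), hG.algebraMap_mem ϖ⟩ = 0 :=
    (red_eq_zero_iff hG red hred _).mpr ⟨1, 𝒟.one_mem, (mul_one _).symm⟩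
  refine ⟨b1 - ⟨algebraMap E F (algebraMap O E ϖ), hG.algebraMap_mem ϖ⟩ * ⟨c1, hc1D⟩, ?_, ?_, ?_⟩
  · exact sub_mem hb1 (mul_mem (H1.const_mem_chart x ϖ) hc1)
  · have e : algebraMap E F x⁻¹ ^ i * ((b1 : F) - algebraMap E F (algebraMap O E ϖ) * c1) =
        (b2 : F) + algebraMap E F (algebraMap O E ϖ) * c2 := by
      have h1 : (b1 : F) - algebraMap E F (algebraMap O E ϖ) * c1 =
          algebraMap E F x ^ i * ((b2 : F) + algebraMap E F (algebraMap O E ϖ) * c2) := by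
        have h2 : (b1 : F) = algebraMap E F x ^ i * (b2 : F) +
            algebraMap E F (algebraMap O E ϖ) * w := by rw [← hwe']; ring
        rw [h2, hwc]; ring
      rw [h1, ← mul_assoc, hXX, one_mul]
    change algebraMap E F x⁻¹ ^ i * ((b1 : F) - algebraMap E F (algebraMap O E ϖ) * c1) ∈ _
    rw [e]
    exact add_mem hb2 (mul_mem (H1.const_mem_chart x⁻¹ ϖ) hc2)
  · rw [map_sub, map_mul, hϖ0, zero_mul, sub_zero, hrb1]

end L5

end Fermat.Agent.S19.KM.Lift
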