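import Fermat.Agent.S19.KM.Geom.Lift.Defs

/-!
# S19 / KM route, section Gc, L0: kernels of `red`, `res`; `red` of polynomials in `x`
(task S19-KM-Gc-L0, helper230)
-/

set_option autoImplicit false
set_option linter.unusedSectionVars false

noncomputable section

namespace Fermat.Agent.S19.KM.Lift

open Fermat.Agent.GoodRed Polynomial Submodule

variable {O K E F : Type*} [CommRing O] [IsDomain O] [IsDiscreteValuationRing O]
  [Field K] [CharZero K] [Algebra O K] [IsFractionRing O K]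
  [Field E] [Algebra K E] [Algebra O E] [IsScalarTower O K E]
  [Field F] [Algebra E F] [FiniteDimensional E F]
  {k₀ Fk₀ : Type*} [Field k₀] [Field Fk₀] [Algebra k₀ Fk₀]

/-! ### L0 : file `Geom/Lift/Ker.lean` : kernels of `red`, `res`; `red` of polynomials in `x` -/
section L0

private theorem Ker.red_eq_zero_iff_nonunits {𝒟 : ValuationSubring F}
    (red : 𝒟 →+* Fk₀) (hred : Function.Surjective red) (y : 𝒟) :
    red y = 0 ↔ (y : F) ∈ 𝒟.nonunits := by
  have hmax : (RingHom.ker red).IsMaximal := RingHom.ker_isMaximal_of_surjective red hred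
  rw [ValuationSubring.coe_mem_nonunits_iff, ← IsLocalRing.eq_maximalIdeal hmax, RingHom.mem_ker]

theorem red_eq_zero_iff {ϖ : O} {x : E} {𝒟 : ValuationSubring F} (hG : GaussData O ϖ 𝒟 x)
    (red : 𝒟 →+* Fk₀) (hred : Function.Surjective red) (y : 𝒟) :
    red y = 0 ↔ ∃ w ∈ 𝒟, (y : F) = algebraMap E F (algebraMap O E ϖ) * w := by
  rw [Ker.red_eq_zero_iff_nonunits red hred, ValuationSubring.mem_nonunits_iff_or]
  constructor
  · rintro (h | h)
    · exact ⟨0, 𝒟.zero_mem, by rw [h, mul_zero]⟩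
    · exact hG.unif y y.2 h
  · rintro ⟨w, hw, hyw⟩
    by_cases hy : (y : F) = 0
    · exact Or.inl hy
    · right
      intro hinv
      apply hG.inv_unif_notMem
      have hϖ0 : algebraMap E F (algebraMap O E ϖ) ≠ 0 := by
        intro h0
        rw [h0, zero_mul] at hyw
        exact hy hyw
      have hw0 : w ≠ 0 := by
        intro h0
        rw [h0, mul_zero] at hyw
        exact hy hyw
      have e : (algebraMap E F (algebraMap O E ϖ))⁻¹ = w * (y : F)⁻¹ := by
        rw [hyw]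
        field_simp
      rw [e]
      exact 𝒟.mul_mem _ _ hw hinv

theorem res_eq_zero_iff {ϖ : O} (hϖ : Irreducible ϖ) (res : O →+* k₀)
    (hres : Function.Surjective res) (a : O) : res a = 0 ↔ ϖ ∣ a := by
  have hmax : (RingHom.ker res).IsMaximal := RingHom.ker_isMaximal_of_surjective res hres
  rw [← RingHom.mem_ker, IsLocalRing.eq_maximalIdeal hmax, hϖ.maximalIdeal_eq,
    Ideal.mem_span_singleton]

private theorem Ker.isPrim_X {ϖ : O} {x : E} {𝒟 : ValuationSubring F}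
    (hG : GaussData O ϖ 𝒟 x) : IsPrim ϖ (X : O[X]) :=
  ⟨1, by rw [coeff_X_one]; exact ChartBase.not_unif_dvd_one ϖ x 𝒟 hG⟩

theorem var_mem {ϖ : O} {x : E} {𝒟 : ValuationSubring F} (hG : GaussData O ϖ 𝒟 x) :
    algebraMap E F x ∈ 𝒟 := by
  have := (hG.gauss X (Ker.isPrim_X hG)).1
  rwa [aeval_X] at this

theorem inv_var_mem {ϖ : O} {x : E} {𝒟 : ValuationSubring F} (hG : GaussData O ϖ 𝒟 x) :
    algebraMap E F x⁻¹ ∈ 𝒟 := by
  have := (hG.gauss X (Ker.isPrim_X hG)).2
  rwa [aeval_X, ← map_inv₀] at this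

theorem red_inv_var {x : E} {𝒟 : ValuationSubring F} (red : 𝒟 →+* Fk₀)
    (hxD : algebraMap E F x ∈ 𝒟) (hxD' : algebraMap E F x⁻¹ ∈ 𝒟) :
    red ⟨algebraMap E F x⁻¹, hxD'⟩ = (red ⟨algebraMap E F x, hxD⟩)⁻¹ := by
  by_cases hx : x = 0
  · have e1 : (⟨algebraMap E F x⁻¹, hxD'⟩ : 𝒟) = 0 := Subtype.ext (by simp [hx])
    have e2 : (⟨algebraMap E F x, hxD⟩ : 𝒟) = 0 := Subtype.ext (by simp [hx])
    rw [e1, e2, map_zero, inv_zero]
  · apply eq_inv_of_mul_eq_one_left
    rw [← map_mul]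
    have e : (⟨algebraMap E F x⁻¹, hxD'⟩ : 𝒟) * ⟨algebraMap E F x, hxD⟩ = 1 := by
      apply Subtype.ext
      show algebraMap E F x⁻¹ * algebraMap E F x = 1
      rw [← map_mul, inv_mul_cancel₀ hx, map_one]
    rw [e, map_one]

private theorem Ker.var_ne_zero {ϖ : O} {x : E} {𝒟 : ValuationSubring F}
    (hG : GaussData O ϖ 𝒟 x) : x ≠ 0 := by
  rintro rfl
  apply hG.inv_unif_notMem
  have hp : IsPrim ϖ (X + C ϖ : O[X]) := ⟨1, by
    rw [coeff_add, coeff_X_one, coeff_C_succ, add_zero]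
    exact ChartBase.not_unif_dvd_one ϖ (0 : E) 𝒟 hG⟩
  have := (hG.gauss _ hp).2
  rwa [map_add, aeval_X, aeval_C, zero_add] at this

theorem red_var_ne_zero {ϖ : O} {x : E} {𝒟 : ValuationSubring F} (hG : GaussData O ϖ 𝒟 x)
    (red : 𝒟 →+* Fk₀) (hxD : algebraMap E F x ∈ 𝒟) : red ⟨algebraMap E F x, hxD⟩ ≠ 0 := by
  intro h0
  have hx := Ker.var_ne_zero hG
  have e : (⟨algebraMap E F x⁻¹, inv_var_mem hG⟩ : 𝒟) * ⟨algebraMap E F x, hxD⟩ = 1 := by
    apply Subtype.ext
    show algebraMap E F x⁻¹ * algebraMap E F x = 1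
    rw [← map_mul, inv_mul_cancel₀ hx, map_one]
  have h1 := congrArg red e
  rw [map_mul, h0, mul_zero, map_one] at h1
  exact zero_ne_one h1

theorem aeval_mem {ϖ : O} {x : E} {𝒟 : ValuationSubring F} (hG : GaussData O ϖ 𝒟 x) (p : O[X]) :
    algebraMap E F (aeval x p) ∈ 𝒟 :=
  ChartBase.algebraMap_polyRing_mem ϖ x 𝒟 hG (toPoly O x p)

theorem red_aeval {ϖ : O} {x : E} {𝒟 : ValuationSubring F} (hG : GaussData O ϖ 𝒟 x)
    (res : O →+* k₀) (red : 𝒟 →+* Fk₀)
    (hcomp : ∀ a : O, red ⟨algebraMap E F (algebraMap O E a), hG.algebraMap_mem a⟩ =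
      algebraMap k₀ Fk₀ (res a))
    (hxD : algebraMap E F x ∈ 𝒟) (p : O[X]) :
    red ⟨algebraMap E F (aeval x p), aeval_mem hG p⟩ =
      aeval (red ⟨algebraMap E F x, hxD⟩) (p.map res) := by
  let f : O[X] →+* 𝒟 :=
    ((algebraMap E F).comp ((aeval x : O[X] →ₐ[O] E) : O[X] →+* E)).codRestrict 𝒟.toSubring
      (fun p => aeval_mem hG p)
  let φ : O[X] →+* Fk₀ := red.comp f
  let ψ : O[X] →+* Fk₀ :=
    ((aeval (red ⟨algebraMap E F x, hxD⟩) : k₀[X] →ₐ[k₀] Fk₀) : k₀[X] →+* Fk₀).comp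
      (mapRingHom res)
  have h : φ = ψ := by
    apply Polynomial.ringHom_ext
    · intro a
      show red ⟨algebraMap E F (aeval x (C a)), _⟩
        = aeval (red ⟨algebraMap E F x, hxD⟩) ((C a).map res)
      have e1 : aeval (red ⟨algebraMap E F x, hxD⟩) ((C a).map res)
          = algebraMap k₀ Fk₀ (res a) := by rw [map_C, aeval_C]
      rw [e1, ← hcomp]
      congr 1
      apply Subtype.ext
      show algebraMap E F (aeval x (C a)) = _
      rw [aeval_C]
    · show red ⟨algebraMap E F (aeval x X), _⟩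
        = aeval (red ⟨algebraMap E F x, hxD⟩) ((X : O[X]).map res)
      have e1 : aeval (red ⟨algebraMap E F x, hxD⟩) ((X : O[X]).map res)
          = red ⟨algebraMap E F x, hxD⟩ := by rw [map_X, aeval_X]
      rw [e1]
      congr 1
      apply Subtype.ext
      show algebraMap E F (aeval x X) = _
      rw [aeval_X]
  exact RingHom.congr_fun h p

end L0

end Fermat.Agent.S19.KM.Lift
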